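import Fermat.Agent.LT.T3.H245.PureRegB

/-!
# Row LT, tower T3, leaf T3.18a.3 `PureRegC` (helper245)

OFF-MAIN.  `pureReg245 (K) : Fermat.Agent.LT.T3.AS.PureRegC K`: the pure tensor
`f₀ ⊗ ⊗_w F_w ⊗ 1_{U^{S'}}` is continuous, of compact support, bi-invariant under `U(𝔫) K_∞`
and supported at `S' = {v₀} ∪ S_∞`.

* continuity: part B (`continuous_pureFn245`);
* compact support: the support lies in `boxG245 ρ a`, the set of `h ∈ GL₂(𝔸_K)` such that all
  entries of `h` and of `h⁻¹` lie in the compact box `{|x_w| ≤ ρ} × a⁻¹ ∏_v 𝒪_v` (`a ∈ 𝓞 K`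
  a common denominator of the finitely many representatives at `v₀`); this set is compact
  because `g ↦ (g, g⁻¹)` is a closed embedding of the units;
* bi-invariance: `OutsideU` is a subgroup which contains `U(𝔫)` and the elements supported at an
  infinite place, `U(𝔫)_{v₀} ⊆ GL₂(𝒪_{v₀})`, `F_w` is bi-`U(2)`-invariant.
-/

set_option autoImplicit false

open IsDedekindDomain NumberField MeasureTheory
open Fermat.Agent.LT.H556.A0
open scoped RestrictedProduct

noncomputable section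

namespace Fermat.Agent.LT.T3.H245

variable {K : Type} [Field K] [NumberField K]

/-! ## The compact boxes -/

/-- The box `{|x_w| ≤ ρ}` at the infinite places. -/
def boxInf245 (K : Type) [Field K] [NumberField K] (ρ : ℝ) : Set (InfiniteAdeleRing K) :=
  {x | ∀ w : InfinitePlace K, ‖InfinitePlace.Completion.extensionEmbedding w (x w)‖ ≤ ρ}

theorem isCompact_boxInf245 (ρ : ℝ) : IsCompact (boxInf245 K ρ) := by
  have h : ∀ w : InfinitePlace K, IsCompact
      ((InfinitePlace.Completion.extensionEmbedding w) ⁻¹' Metric.closedBall (0 : ℂ) ρ) :=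
    fun w => (InfinitePlace.Completion.isometry_extensionEmbedding w).isClosedEmbedding
      |>.isCompact_preimage (isCompact_closedBall 0 ρ)
  have hc := isCompact_univ_pi h
  have e : boxInf245 K ρ = Set.pi Set.univ
      (fun w : InfinitePlace K =>
        (InfinitePlace.Completion.extensionEmbedding w) ⁻¹' Metric.closedBall (0 : ℂ) ρ) := by
    ext x
    constructor
    · intro hx w _
      exact mem_closedBall_zero_iff.2 (hx w)
    · intro hx w
      exact mem_closedBall_zero_iff.1 (hx w (Set.mem_univ w))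
  rw [e]
  exact hc

/-- The box `a⁻¹ ∏_v 𝒪_v` at the finite places. -/
def boxFin245 (K : Type) [Field K] [NumberField K] (a : 𝓞 K) :
    Set (FiniteAdeleRing (𝓞 K) K) :=
  (fun y => algebraMap K (FiniteAdeleRing (𝓞 K) K) ((algebraMap (𝓞 K) K a)⁻¹) * y) ''
    {y | ∀ v : HeightOneSpectrum (𝓞 K), y v ∈ v.adicCompletionIntegers K}

theorem isCompact_boxFin245 (a : 𝓞 K) : IsCompact (boxFin245 K a) := by
  have : ∀ v : HeightOneSpectrum (𝓞 K), CompactSpace (v.adicCompletionIntegers K) :=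
    fun v => LT.H11.LC.compactSpace_integers_h11 K v
  have hr : IsCompact {y : FiniteAdeleRing (𝓞 K) K |
      ∀ v : HeightOneSpectrum (𝓞 K), y v ∈ v.adicCompletionIntegers K} := by
    have := isCompact_range (RestrictedProduct.isEmbedding_structureMap
      (R := fun v : HeightOneSpectrum (𝓞 K) => v.adicCompletion K)
      (A := fun v : HeightOneSpectrum (𝓞 K) => v.adicCompletionIntegers K)
      (𝓕 := Filter.cofinite)).continuous
    rw [RestrictedProduct.range_structureMap] at this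
    exact this
  exact hr.image (continuous_const.mul continuous_id)

theorem mem_boxFin245 {a : 𝓞 K} (ha : a ≠ 0) {x : FiniteAdeleRing (𝓞 K) K}
    (hx : ∀ v : HeightOneSpectrum (𝓞 K),
      toCompl245 K v a * x v ∈ v.adicCompletionIntegers K) : x ∈ boxFin245 K a := by
  have haK : algebraMap (𝓞 K) K a ≠ 0 := by
    intro h
    exact ha ((map_eq_zero_iff _ (IsFractionRing.injective (𝓞 K) K)).1 h)
  refine ⟨algebraMap K (FiniteAdeleRing (𝓞 K) K) (algebraMap (𝓞 K) K a) * x, ?_, ?_⟩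
  · intro v
    exact hx v
  · show algebraMap K (FiniteAdeleRing (𝓞 K) K) ((algebraMap (𝓞 K) K a)⁻¹)
      * (algebraMap K (FiniteAdeleRing (𝓞 K) K) (algebraMap (𝓞 K) K a) * x) = x
    rw [← mul_assoc, ← map_mul, inv_mul_cancel₀ haK, map_one, one_mul]

/-- The box in the adeles. -/
def boxAdl245 (K : Type) [Field K] [NumberField K] (ρ : ℝ) (a : 𝓞 K) : Set (Adl K) :=
  {x | x.1 ∈ boxInf245 K ρ ∧ x.2 ∈ boxFin245 K a}

theorem isCompact_boxAdl245 (ρ : ℝ) (a : 𝓞 K) : IsCompact (boxAdl245 K ρ a) := by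
  have h : IsCompact ((boxInf245 K ρ) ×ˢ (boxFin245 K a)) :=
    (isCompact_boxInf245 ρ).prod (isCompact_boxFin245 a)
  exact h

/-- The box in the matrices. -/
def boxMat245 (K : Type) [Field K] [NumberField K] (ρ : ℝ) (a : 𝓞 K) :
    Set (Matrix (Fin 2) (Fin 2) (Adl K)) :=
  {m | ∀ i j : Fin 2, m i j ∈ boxAdl245 K ρ a}

theorem isCompact_boxMat245 (ρ : ℝ) (a : 𝓞 K) : IsCompact (boxMat245 K ρ a) := by
  have h : IsCompact (Set.pi Set.univ
      (fun _ : Fin 2 => Set.pi Set.univ (fun _ : Fin 2 => boxAdl245 K ρ a))) :=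
    isCompact_univ_pi (fun _ => isCompact_univ_pi (fun _ => isCompact_boxAdl245 ρ a))
  have e : boxMat245 K ρ a = Set.pi Set.univ
      (fun _ : Fin 2 => Set.pi Set.univ (fun _ : Fin 2 => boxAdl245 K ρ a)) := by
    ext m
    constructor
    · intro hm i _ j _
      exact hm i j
    · intro hm i j
      exact hm i (Set.mem_univ i) j (Set.mem_univ j)
  rw [e]
  exact h

/-- The box in `GL₂(𝔸_K)`: all entries of `h` and of `h⁻¹` in the box. -/
def boxG245 (K : Type) [Field K] [NumberField K] (ρ : ℝ) (a : 𝓞 K) : Set (G K) :=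
  {h | (h : Matrix (Fin 2) (Fin 2) (Adl K)) ∈ boxMat245 K ρ a ∧
    ((h⁻¹ : G K) : Matrix (Fin 2) (Fin 2) (Adl K)) ∈ boxMat245 K ρ a}

theorem isCompact_boxG245 (ρ : ℝ) (a : 𝓞 K) : IsCompact (boxG245 K ρ a) := by
  have := LT.H11.LC.t2Space_adeleRing_h11 K
  have : T2Space (Matrix (Fin 2) (Fin 2) (Adl K)) := LT.H11.LC.t2Space_matrix_h11 _ _
  have hemb := Units.isClosedEmbedding_embedProduct (α := Matrix (Fin 2) (Fin 2) (Adl K))
  have hc : IsCompact ((boxMat245 K ρ a) ×ˢ (MulOpposite.op '' (boxMat245 K ρ a))) :=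
    (isCompact_boxMat245 ρ a).prod ((isCompact_boxMat245 ρ a).image MulOpposite.continuous_op)
  have h := hemb.isCompact_preimage hc
  have e : boxG245 K ρ a = (Units.embedProduct (Matrix (Fin 2) (Fin 2) (Adl K))) ⁻¹'
      ((boxMat245 K ρ a) ×ˢ (MulOpposite.op '' (boxMat245 K ρ a))) := by
    ext g
    simp only [boxG245, Set.mem_ofPred_eq, Set.mem_preimage, Set.mem_prod,
      Units.embedProduct_apply, Set.mem_image, MulOpposite.op_inj, exists_eq_right]
  rw [e]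
  exact h

/-! ## The local bounds -/

/-- The entries of `g` and `g⁻¹` are bounded on the support of a compactly supported function
on `GL₂(ℂ)`. -/
theorem exists_arch_bound245 {F : GL (Fin 2) ℂ → ℂ} (hF : HasCompactSupport F) :
    ∃ ρ : ℝ, ∀ g : GL (Fin 2) ℂ, F g ≠ 0 → ∀ i j : Fin 2,
      ‖(g : Matrix (Fin 2) (Fin 2) ℂ) i j‖ ≤ ρ ∧
      ‖((g⁻¹ : GL (Fin 2) ℂ) : Matrix (Fin 2) (Fin 2) ℂ) i j‖ ≤ ρ := by
  have h1 : ∀ i j : Fin 2, ∃ c : ℝ, ∀ g ∈ tsupport F,
      ‖(g : Matrix (Fin 2) (Fin 2) ℂ) i j‖ ≤ c := fun i j =>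
    IsCompact.exists_bound_of_continuousOn hF
      (Units.continuous_val.matrix_elem i j).continuousOn
  have h2 : ∀ i j : Fin 2, ∃ c : ℝ, ∀ g ∈ tsupport F,
      ‖((g⁻¹ : GL (Fin 2) ℂ) : Matrix (Fin 2) (Fin 2) ℂ) i j‖ ≤ c := fun i j =>
    IsCompact.exists_bound_of_continuousOn hF
      ((Units.continuous_val.comp continuous_inv).matrix_elem i j).continuousOn
  choose c1 hc1 using h1
  choose c2 hc2 using h2
  obtain ⟨ρ, hρ⟩ := Finite.bddAbove_range
    (fun p : (Fin 2 × Fin 2) ⊕ (Fin 2 × Fin 2) =>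
      Sum.elim (fun q : Fin 2 × Fin 2 => c1 q.1 q.2) (fun q : Fin 2 × Fin 2 => c2 q.1 q.2) p)
  refine ⟨ρ, fun g hg i j => ⟨?_, ?_⟩⟩
  · exact (hc1 i j g (subset_tsupport _ hg)).trans (hρ ⟨Sum.inl (i, j), rfl⟩)
  · exact (hc2 i j g (subset_tsupport _ hg)).trans (hρ ⟨Sum.inr (i, j), rfl⟩)

/-- A common denominator on the support of `f₀`. -/
theorem exists_fin_bound245 {v : HeightOneSpectrum (𝓞 K)}
    {f₀ : GL (Fin 2) (v.adicCompletion K) → ℂ}
    (hR : ∃ R : Finset (GL (Fin 2) (v.adicCompletion K)), AS.IsRepSys v f₀ R) :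
    ∃ a : 𝓞 K, a ≠ 0 ∧ ∀ g : GL (Fin 2) (v.adicCompletion K), f₀ g ≠ 0 → ∀ i j : Fin 2,
      toCompl245 K v a * (g : Matrix (Fin 2) (Fin 2) (v.adicCompletion K)) i j
        ∈ v.adicCompletionIntegers K ∧
      toCompl245 K v a * ((g⁻¹ : GL (Fin 2) (v.adicCompletion K)) :
        Matrix (Fin 2) (Fin 2) (v.adicCompletion K)) i j ∈ v.adicCompletionIntegers K := by
  classical
  obtain ⟨R, hR⟩ := hR
  obtain ⟨a, ha0, ha⟩ := exists_common_denom245 v
    (R.biUnion fun r =>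
      (Finset.univ.image fun p : Fin 2 × Fin 2 =>
          (r : Matrix (Fin 2) (Fin 2) (v.adicCompletion K)) p.1 p.2)
        ∪ (Finset.univ.image fun p : Fin 2 × Fin 2 =>
          ((r⁻¹ : GL (Fin 2) (v.adicCompletion K)) :
            Matrix (Fin 2) (Fin 2) (v.adicCompletion K)) p.1 p.2))
  refine ⟨a, ha0, ?_⟩
  intro g hg i j
  obtain ⟨r, hr, hk⟩ := hR.2 g hg
  have har1 : ∀ i j : Fin 2,
      toCompl245 K v a * (r : Matrix (Fin 2) (Fin 2) (v.adicCompletion K)) i j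
        ∈ v.adicCompletionIntegers K := by
    intro i j
    refine ha _ (Finset.mem_biUnion.2 ⟨r, hr, Finset.mem_union_left _ ?_⟩)
    exact Finset.mem_image.2 ⟨(i, j), Finset.mem_univ _, rfl⟩
  have har2 : ∀ i j : Fin 2,
      toCompl245 K v a * ((r⁻¹ : GL (Fin 2) (v.adicCompletion K)) :
        Matrix (Fin 2) (Fin 2) (v.adicCompletion K)) i j ∈ v.adicCompletionIntegers K := by
    intro i j
    refine ha _ (Finset.mem_biUnion.2 ⟨r, hr, Finset.mem_union_right _ ?_⟩)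
    exact Finset.mem_image.2 ⟨(i, j), Finset.mem_univ _, rfl⟩
  have hg' : g = r * (r⁻¹ * g) := by rw [mul_inv_cancel_left]
  have hginv : g⁻¹ = (r⁻¹ * g)⁻¹ * r⁻¹ := by rw [mul_inv_rev, inv_inv, mul_inv_cancel_right]
  constructor
  · rw [hg', Units.val_mul, Matrix.mul_apply, Fin.sum_univ_two, mul_add, ← mul_assoc,
      ← mul_assoc]
    exact add_mem (mul_mem (har1 i 0) (hk 0 j).1) (mul_mem (har1 i 1) (hk 1 j).1)
  · rw [hginv, Units.val_mul, Matrix.mul_apply, Fin.sum_univ_two, mul_add, mul_left_comm,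
      mul_left_comm (toCompl245 K v a)]
    exact add_mem (mul_mem (hk i 0).2 (har2 0 j)) (mul_mem (hk i 1).2 (har2 1 j))

/-! ## The components of the level group and of the archimedean compact groups -/

theorem infGL_eq_one245 {w : InfinitePlace K} {g : G K} (h : TrivAtInf w g) :
    AS.infGL K w g = 1 := by
  apply Units.ext
  refine Matrix.ext fun i j => ?_
  show InfinitePlace.Completion.extensionEmbedding w
    (((g : Matrix (Fin 2) (Fin 2) (Adl K)) i j).1 w) = (1 : Matrix (Fin 2) (Fin 2) ℂ) i j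
  rw [h i j, Matrix.one_apply, Matrix.one_apply]
  split_ifs
  · exact map_one _
  · exact map_zero _

theorem finGL_eq_one245 {v : HeightOneSpectrum (𝓞 K)} {g : G K} (h : TrivAtFin v g) :
    AS.finGL K v g = 1 := by
  apply Units.ext
  exact h

theorem finGL_mem_locU_of_level245 {𝔫 : Ideal (𝓞 K)} {u : G K} (hu : InLevelGroup 𝔫 u)
    (v : HeightOneSpectrum (𝓞 K)) : AS.finGL K v u ∈ locU245 𝔫 v := by
  intro i j
  refine ⟨(hu.2 v i j).1, ?_⟩
  rw [← map_inv]
  exact (hu.2 v i j).2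

theorem level_mem_outU245 {𝔫 : Ideal (𝓞 K)} {v₀ : HeightOneSpectrum (𝓞 K)} {u : G K}
    (hu : InLevelGroup 𝔫 u) : u ∈ outU245 𝔫 v₀ :=
  outsideU_iff245.2 fun v _ => finGL_mem_locU_of_level245 hu v

theorem arch_mem_outU245 {𝔫 : Ideal (𝓞 K)} {v₀ : HeightOneSpectrum (𝓞 K)}
    {w : InfinitePlace K} {k : G K} (hk : IsLocalAtInf w k) : k ∈ outU245 𝔫 v₀ :=
  outsideU_iff245.2 fun v _ => by
    rw [finGL_eq_one245 (hk.2 v)]
    exact one_mem _

theorem pureFn_congr245 {𝔫 : Ideal (𝓞 K)} {v₀ : HeightOneSpectrum (𝓞 K)}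
    {f₀ : GL (Fin 2) (v₀.adicCompletion K) → ℂ} {F : InfinitePlace K → GL (Fin 2) ℂ → ℂ}
    {h h' : G K} (h1 : AS.OutsideU K 𝔫 v₀ h ↔ AS.OutsideU K 𝔫 v₀ h')
    (h2 : f₀ (AS.finGL K v₀ h) = f₀ (AS.finGL K v₀ h'))
    (h3 : ∀ w, F w (AS.infGL K w h) = F w (AS.infGL K w h')) :
    AS.pureFn K 𝔫 v₀ f₀ F h = AS.pureFn K 𝔫 v₀ f₀ F h' := by
  unfold AS.pureFn
  by_cases hh : AS.OutsideU K 𝔫 v₀ h
  · rw [if_pos hh, if_pos (h1.1 hh), h2]
    congr 1
    exact Finset.prod_congr rfl fun w _ => h3 w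
  · rw [if_neg hh, if_neg (fun H => hh (h1.2 H))]

theorem outsideU_of_pureFn_ne_zero245 {𝔫 : Ideal (𝓞 K)} {v₀ : HeightOneSpectrum (𝓞 K)}
    {f₀ : GL (Fin 2) (v₀.adicCompletion K) → ℂ} {F : InfinitePlace K → GL (Fin 2) ℂ → ℂ}
    {h : G K} (hh : AS.pureFn K 𝔫 v₀ f₀ F h ≠ 0) : AS.OutsideU K 𝔫 v₀ h := by
  by_contra hO
  apply hh
  unfold AS.pureFn
  rw [if_neg hO]

/-! ## Bi-invariance -/

theorem isBiInv_pureFn245 {𝔫 : Ideal (𝓞 K)} {v₀ : HeightOneSpectrum (𝓞 K)}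
    {f₀ : GL (Fin 2) (v₀.adicCompletion K) → ℂ} {F : InfinitePlace K → GL (Fin 2) ℂ → ℂ}
    (hf₀ : AS.IsBiIntInv v₀ f₀) (hF : ∀ w, AS.IsCplxTest (F w)) :
    IsBiInv K 𝔫 (AS.pureFn K 𝔫 v₀ f₀ F) := by
  have hone := isIntGL_one245 v₀
  have hU1 : AS.IsUnitary2 (1 : GL (Fin 2) ℂ) := by
    simp [AS.IsUnitary2]
  refine ⟨?_, ?_⟩
  · intro u hu h
    have huo : u ∈ outU245 𝔫 v₀ := level_mem_outU245 hu
    have hk : AS.IsIntGL v₀ (AS.finGL K v₀ u) :=
      isIntGL_of_mem_locU245 (finGL_mem_locU_of_level245 hu v₀)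
    have hinf : ∀ w, AS.infGL K w u = 1 := fun w => infGL_eq_one245 (hu.1 w)
    refine ⟨pureFn_congr245 ?_ ?_ ?_, pureFn_congr245 ?_ ?_ ?_⟩
    · exact Subgroup.mul_mem_cancel_left _ huo
    · rw [map_mul]
      have := hf₀ (AS.finGL K v₀ u) 1 (AS.finGL K v₀ h) hk hone
      rwa [mul_one] at this
    · intro w
      rw [map_mul, hinf w, one_mul]
    · exact Subgroup.mul_mem_cancel_right _ huo
    · rw [map_mul]
      have := hf₀ 1 (AS.finGL K v₀ u) (AS.finGL K v₀ h) hone hk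
      rwa [one_mul] at this
    · intro w
      rw [map_mul, hinf w, mul_one]
  · intro w k hk h
    have hko : k ∈ outU245 𝔫 v₀ := arch_mem_outU245 hk.1
    have hfin : AS.finGL K v₀ k = 1 := finGL_eq_one245 (hk.1.2 v₀)
    have hinf : ∀ w', w' ≠ w → AS.infGL K w' k = 1 :=
      fun w' hw' => infGL_eq_one245 (hk.1.1 w' hw')
    have hun : AS.IsUnitary2 (AS.infGL K w k) := hk.2.1
    refine ⟨pureFn_congr245 ?_ ?_ ?_, pureFn_congr245 ?_ ?_ ?_⟩
    · exact Subgroup.mul_mem_cancel_left _ hko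
    · rw [map_mul, hfin, one_mul]
    · intro w'
      rw [map_mul]
      by_cases hw' : w' = w
      · subst hw'
        have := (hF w').bi_inv (AS.infGL K w' k) 1 (AS.infGL K w' h) hun hU1
        rwa [mul_one] at this
      · rw [hinf w' hw', one_mul]
    · exact Subgroup.mul_mem_cancel_right _ hko
    · rw [map_mul, hfin, mul_one]
    · intro w'
      rw [map_mul]
      by_cases hw' : w' = w
      · subst hw'
        have := (hF w').bi_inv 1 (AS.infGL K w' k) (AS.infGL K w' h) hU1 hun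
        rwa [one_mul] at this
      · rw [hinf w' hw', mul_one]

/-! ## Compact support -/

theorem hasCompactSupport_pureFn245 {𝔫 : Ideal (𝓞 K)} {v₀ : HeightOneSpectrum (𝓞 K)}
    {f₀ : GL (Fin 2) (v₀.adicCompletion K) → ℂ} {F : InfinitePlace K → GL (Fin 2) ℂ → ℂ}
    (hR : ∃ R : Finset (GL (Fin 2) (v₀.adicCompletion K)), AS.IsRepSys v₀ f₀ R)
    (hF : ∀ w, HasCompactSupport (F w)) :
    HasCompactSupport (AS.pureFn K 𝔫 v₀ f₀ F) := by
  have := LT.H11.LC.t2Space_GL2_adeleRing_h11 K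
  obtain ⟨a, ha0, ha⟩ := exists_fin_bound245 hR
  have hρ' := fun w => exists_arch_bound245 (hF w)
  choose ρ' hρ' using hρ'
  obtain ⟨ρ, hρ⟩ := Finite.bddAbove_range ρ'
  refine HasCompactSupport.intro (isCompact_boxG245 ρ a) ?_
  intro h hh
  by_contra hne
  apply hh
  have hO : AS.OutsideU K 𝔫 v₀ h := outsideU_of_pureFn_ne_zero245 hne
  have hval : AS.pureFn K 𝔫 v₀ f₀ F h
      = f₀ (AS.finGL K v₀ h) * ∏ w : InfinitePlace K, F w (AS.infGL K w h) := by
    unfold AS.pureFn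
    rw [if_pos hO]
  rw [hval] at hne
  have hf : f₀ (AS.finGL K v₀ h) ≠ 0 := left_ne_zero_of_mul hne
  have hFw : ∀ w, F w (AS.infGL K w h) ≠ 0 := fun w =>
    (Finset.prod_ne_zero_iff.1 (right_ne_zero_of_mul hne)) w (Finset.mem_univ w)
  have key : ∀ g : G K,
      (∀ (w : InfinitePlace K) (i j : Fin 2),
        ‖((AS.infGL K w g : GL (Fin 2) ℂ) : Matrix (Fin 2) (Fin 2) ℂ) i j‖ ≤ ρ) →
      (∀ (v : HeightOneSpectrum (𝓞 K)) (i j : Fin 2),
        toCompl245 K v a * ((AS.finGL K v g : GL (Fin 2) (v.adicCompletion K)) :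
          Matrix (Fin 2) (Fin 2) (v.adicCompletion K)) i j ∈ v.adicCompletionIntegers K) →
      (g : Matrix (Fin 2) (Fin 2) (Adl K)) ∈ boxMat245 K ρ a := by
    intro g h1 h2 i j
    exact ⟨fun w => h1 w i j, mem_boxFin245 ha0 fun v => h2 v i j⟩
  have hloc := outsideU_iff245.1 hO
  refine ⟨key h ?_ ?_, key h⁻¹ ?_ ?_⟩
  · intro w i j
    exact ((hρ' w _ (hFw w) i j).1).trans (hρ ⟨w, rfl⟩)
  · intro v i j
    by_cases hv : v = v₀
    · subst hv
      exact (ha _ hf i j).1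
    · exact mul_mem (toCompl245_mem_integers K v a)
        ((isIntGL_of_mem_locU245 (hloc v hv)) i j).1
  · intro w i j
    rw [map_inv]
    exact ((hρ' w _ (hFw w) i j).2).trans (hρ ⟨w, rfl⟩)
  · intro v i j
    rw [map_inv]
    by_cases hv : v = v₀
    · subst hv
      exact (ha _ hf i j).2
    · exact mul_mem (toCompl245_mem_integers K v a)
        ((isIntGL_of_mem_locU245 (hloc v hv)) i j).2

/-! ## The leaf -/

/-- **T3.18a.3 = AS.3 `PureRegC`.** -/
theorem pureReg245 (K : Type) [Field K] [NumberField K] : AS.PureRegC K := by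
  intro 𝔫 h𝔫 v₀ _ f₀ F hf₀ hR hF
  exact ⟨continuous_pureFn245 h𝔫 v₀ hf₀ (fun w => (hF w).cont),
    hasCompactSupport_pureFn245 hR (fun w => (hF w).supp),
    isBiInv_pureFn245 hf₀ hF,
    fun _ hh => outsideU_of_pureFn_ne_zero245 hh⟩

end Fermat.Agent.LT.T3.H245
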