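import Fermat.Agent.LT.T3.H736.ASSpec
import Fermat.Agent.LT.H11.LC

/-!
# Row LT, tower T3, leaf T3.18a.3 `PureRegC` (helper245), part A: local facts

OFF-MAIN.  Density of `𝓞 K` in `𝒪_v`, the closure `𝔫 𝒪_v` of an ideal (closed, open, an ideal of
`𝒪_v`, equal to `𝒪_v` when `v ∤ 𝔫`), clearing of denominators in `K_v`.
-/

set_option autoImplicit false

open IsDedekindDomain NumberField MeasureTheory
open Fermat.Agent.LT.H556.A0
open scoped RestrictedProduct

noncomputable section

namespace Fermat.Agent.LT.T3.H245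

variable (K : Type) [Field K] [NumberField K]

/-- The map `𝓞 K → K_v`. -/
abbrev toCompl245 (v : HeightOneSpectrum (𝓞 K)) (x : 𝓞 K) : v.adicCompletion K :=
  algebraMap K (v.adicCompletion K) (algebraMap (𝓞 K) K x)

theorem valued_algebraMap245 (v : HeightOneSpectrum (𝓞 K)) (y : K) :
    Valued.v (algebraMap K (v.adicCompletion K) y) = v.valuation K y :=
  HeightOneSpectrum.valuedAdicCompletion_eq_valuation' v y

theorem valued_toCompl245 (v : HeightOneSpectrum (𝓞 K)) (x : 𝓞 K) :
    Valued.v (toCompl245 K v x) = v.intValuation x := by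
  rw [toCompl245, valued_algebraMap245, HeightOneSpectrum.valuation_of_algebraMap]

theorem toCompl245_mem_integers (v : HeightOneSpectrum (𝓞 K)) (x : 𝓞 K) :
    toCompl245 K v x ∈ v.adicCompletionIntegers K := by
  rw [HeightOneSpectrum.mem_adicCompletionIntegers, valued_toCompl245]
  exact v.intValuation_le_one x

/-- `𝓞 K` is dense in `𝒪_v`. -/
theorem integers_subset_closure245 (v : HeightOneSpectrum (𝓞 K)) :
    (v.adicCompletionIntegers K : Set (v.adicCompletion K))
      ⊆ closure (Set.range (toCompl245 K v)) := by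
  intro x hx
  rw [mem_closure_iff]
  intro U hU hxU
  have hO : IsOpen (v.adicCompletionIntegers K : Set (v.adicCompletion K)) :=
    Valued.isOpen_valuationSubring _
  obtain ⟨k, hk⟩ := (HeightOneSpectrum.denseRange_algebraMap K v).exists_mem_open
    (hU.inter hO) ⟨x, hxU, hx⟩
  have hkU : algebraMap K (v.adicCompletion K) k ∈ U := hk.1
  have hk1 : v.valuation K k ≤ 1 := by
    rw [← valued_algebraMap245]
    exact (HeightOneSpectrum.mem_adicCompletionIntegers (𝓞 K) K v).1 hk.2
  obtain ⟨γ, hγ⟩ := (Valued.mem_nhds (R := v.adicCompletion K)).1 (hU.mem_nhds hkU)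
  have hγ0 : MonoidWithZeroHom.ValueGroup₀.embedding γ.1 ≠ 0 := by
    simp
  obtain ⟨a, ha⟩ := HeightOneSpectrum.exists_valuation_sub_lt_of_integer v hk1
    (Units.mk0 _ hγ0)
  refine ⟨toCompl245 K v a, hγ ?_, a, rfl⟩
  show (Valued.v : Valuation (v.adicCompletion K) _).restrict
    (toCompl245 K v a - algebraMap K (v.adicCompletion K) k) < γ.1
  rw [Valuation.restrict_lt_iff_lt_embedding]
  have e : toCompl245 K v a - algebraMap K (v.adicCompletion K) k
      = algebraMap K (v.adicCompletion K) (algebraMap (𝓞 K) K a - k) := by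
    rw [map_sub]
  rw [e, valued_algebraMap245]
  exact ha

variable {K}
variable (𝔫 : Ideal (𝓞 K)) (v : HeightOneSpectrum (𝓞 K))

theorem idealClosure_eq245 :
    idealClosure 𝔫 v = closure (toCompl245 K v '' (𝔫 : Set (𝓞 K))) := rfl

theorem isClosed_idealClosure245 : IsClosed (idealClosure 𝔫 v) := isClosed_closure

theorem idealClosure_subset245 :
    idealClosure 𝔫 v ⊆ (v.adicCompletionIntegers K : Set (v.adicCompletion K)) := by
  refine closure_minimal ?_ (Valued.isClosed_valuationSubring _)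
  rintro _ ⟨x, -, rfl⟩
  exact toCompl245_mem_integers K v x

theorem toCompl245_mem_idealClosure {a : 𝓞 K} (ha : a ∈ 𝔫) :
    toCompl245 K v a ∈ idealClosure 𝔫 v :=
  subset_closure ⟨a, ha, rfl⟩

theorem zero_mem_idealClosure245 : (0 : v.adicCompletion K) ∈ idealClosure 𝔫 v := by
  have := toCompl245_mem_idealClosure 𝔫 v (zero_mem 𝔫)
  simpa [toCompl245] using this

theorem add_mem_idealClosure245 {x y : v.adicCompletion K} (hx : x ∈ idealClosure 𝔫 v)
    (hy : y ∈ idealClosure 𝔫 v) : x + y ∈ idealClosure 𝔫 v := by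
  refine map_mem_closure₂ continuous_add hx hy ?_
  rintro _ ⟨a, ha, rfl⟩ _ ⟨b, hb, rfl⟩
  exact ⟨a + b, 𝔫.add_mem ha hb, by simp⟩

theorem neg_mem_idealClosure245 {x : v.adicCompletion K} (hx : x ∈ idealClosure 𝔫 v) :
    -x ∈ idealClosure 𝔫 v := by
  refine map_mem_closure continuous_neg hx ?_
  rintro _ ⟨a, ha, rfl⟩
  exact ⟨-a, 𝔫.neg_mem ha, by simp⟩

theorem mul_mem_idealClosure245 {x y : v.adicCompletion K}
    (hx : x ∈ v.adicCompletionIntegers K) (hy : y ∈ idealClosure 𝔫 v) :
    x * y ∈ idealClosure 𝔫 v := by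
  refine map_mem_closure₂ continuous_mul (integers_subset_closure245 K v hx) hy ?_
  rintro _ ⟨a, rfl⟩ _ ⟨b, hb, rfl⟩
  exact ⟨a * b, 𝔫.mul_mem_left a hb, by simp [toCompl245]⟩

theorem mul_mem_idealClosure245' {x y : v.adicCompletion K}
    (hx : x ∈ idealClosure 𝔫 v) (hy : y ∈ idealClosure 𝔫 v) :
    x * y ∈ idealClosure 𝔫 v :=
  mul_mem_idealClosure245 𝔫 v (idealClosure_subset245 𝔫 v hx) hy

/-- The closure of `𝔫` as an additive subgroup of `K_v`. -/
def idealClosureAdd245 : AddSubgroup (v.adicCompletion K) where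
  carrier := idealClosure 𝔫 v
  add_mem' := add_mem_idealClosure245 𝔫 v
  zero_mem' := zero_mem_idealClosure245 𝔫 v
  neg_mem' := neg_mem_idealClosure245 𝔫 v

theorem toCompl245_ne_zero {a : 𝓞 K} (ha : a ≠ 0) : toCompl245 K v a ≠ 0 := by
  intro h
  apply ha
  have h1 : algebraMap (𝓞 K) K a = 0 :=
    (map_eq_zero_iff _ (algebraMap K (v.adicCompletion K)).injective).1 h
  exact (map_eq_zero_iff _ (IsFractionRing.injective (𝓞 K) K)).1 h1

/-- `𝔫 𝒪_v` is open when `𝔫 ≠ 0`. -/
theorem isOpen_idealClosure245 (h𝔫 : 𝔫 ≠ ⊥) : IsOpen (idealClosure 𝔫 v) := by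
  obtain ⟨a, ha, ha0⟩ := Submodule.exists_mem_ne_zero_of_ne_bot h𝔫
  have h0 := toCompl245_ne_zero v ha0
  have hopen : IsOpen ((fun x => toCompl245 K v a * x) ''
      (v.adicCompletionIntegers K : Set (v.adicCompletion K))) :=
    (Homeomorph.mulLeft₀ _ h0).isOpenMap _ (Valued.isOpen_valuationSubring _)
  have hsub : ((fun x => toCompl245 K v a * x) ''
      (v.adicCompletionIntegers K : Set (v.adicCompletion K))) ⊆ idealClosure 𝔫 v := by
    rintro _ ⟨x, hx, rfl⟩
    show toCompl245 K v a * x ∈ idealClosure 𝔫 v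
    rw [mul_comm]
    exact mul_mem_idealClosure245 𝔫 v hx (toCompl245_mem_idealClosure 𝔫 v ha)
  have hmem : idealClosure 𝔫 v ∈ nhds (0 : v.adicCompletion K) :=
    Filter.mem_of_superset (hopen.mem_nhds ⟨0, zero_mem _, by simp⟩) hsub
  exact AddSubgroup.isOpen_of_mem_nhds (idealClosureAdd245 𝔫 v) hmem

/-- `𝔫 𝒪_v = 𝒪_v` when `v ∤ 𝔫`. -/
theorem idealClosure_eq_integers245 (hv : ¬ v.asIdeal ∣ 𝔫) :
    idealClosure 𝔫 v = (v.adicCompletionIntegers K : Set (v.adicCompletion K)) := by
  refine Set.Subset.antisymm (idealClosure_subset245 𝔫 v) ?_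
  have hle : ¬ 𝔫 ≤ v.asIdeal := fun h => hv (Ideal.dvd_iff_le.2 h)
  obtain ⟨a, ha, hav⟩ := Set.not_subset.1 hle
  have h1 : Valued.v (toCompl245 K v a) = 1 := by
    rw [valued_toCompl245]
    exact HeightOneSpectrum.intValuation_eq_one_iff.2 hav
  have h0 : toCompl245 K v a ≠ 0 := by
    intro h
    rw [h, map_zero] at h1
    exact zero_ne_one h1
  intro x hx
  have hx' : (toCompl245 K v a)⁻¹ * x ∈ v.adicCompletionIntegers K := by
    have hx1 : Valued.v x ≤ 1 := (HeightOneSpectrum.mem_adicCompletionIntegers (𝓞 K) K v).1 hx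
    rw [HeightOneSpectrum.mem_adicCompletionIntegers, map_mul, map_inv₀, h1, inv_one, one_mul]
    exact hx1
  have := mul_mem_idealClosure245 𝔫 v hx' (toCompl245_mem_idealClosure 𝔫 v ha)
  rwa [mul_comm, ← mul_assoc, mul_inv_cancel₀ h0, one_mul] at this


/-! ## Clearing denominators -/

theorem toCompl245_mul (a b : 𝓞 K) :
    toCompl245 K v (a * b) = toCompl245 K v a * toCompl245 K v b := by
  simp [toCompl245]

/-- Every element of `K_v` has a nonzero global denominator. -/
theorem exists_denom245 (y : v.adicCompletion K) :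
    ∃ a : 𝓞 K, a ≠ 0 ∧ toCompl245 K v a * y ∈ v.adicCompletionIntegers K := by
  have hO : IsOpen (v.adicCompletionIntegers K : Set (v.adicCompletion K)) :=
    Valued.isOpen_valuationSubring _
  have hopen : IsOpen {z : v.adicCompletion K | y - z ∈ v.adicCompletionIntegers K} :=
    hO.preimage (continuous_const.sub continuous_id)
  obtain ⟨k, hk⟩ := (HeightOneSpectrum.denseRange_algebraMap K v).exists_mem_open hopen
    ⟨y, by simp [zero_mem]⟩
  replace hk : y - algebraMap K (v.adicCompletion K) k ∈ v.adicCompletionIntegers K := hk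
  obtain ⟨n, d, hd, hnd⟩ := IsFractionRing.div_surjective (A := 𝓞 K) k
  have hd0 : d ≠ 0 := nonZeroDivisors.ne_zero hd
  have hdK : algebraMap (𝓞 K) K d ≠ 0 := by
    intro h
    exact hd0 ((map_eq_zero_iff _ (IsFractionRing.injective (𝓞 K) K)).1 h)
  refine ⟨d, hd0, ?_⟩
  have e : toCompl245 K v d * y
      = toCompl245 K v d * (y - algebraMap K (v.adicCompletion K) k) + toCompl245 K v n := by
    have : toCompl245 K v d * algebraMap K (v.adicCompletion K) k = toCompl245 K v n := by
      rw [toCompl245, ← map_mul, ← hnd, mul_div_cancel₀ _ hdK]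
    rw [mul_sub, this]
    ring
  rw [e]
  exact add_mem (mul_mem (toCompl245_mem_integers K v d) hk) (toCompl245_mem_integers K v n)

open Classical in
/-- A finite subset of `K_v` has a common nonzero global denominator. -/
theorem exists_common_denom245 (Y : Finset (v.adicCompletion K)) :
    ∃ a : 𝓞 K, a ≠ 0 ∧ ∀ y ∈ Y, toCompl245 K v a * y ∈ v.adicCompletionIntegers K := by
  induction Y using Finset.induction_on with
  | empty => exact ⟨1, one_ne_zero, by simp⟩
  | insert y Y _ ih =>
    obtain ⟨a, ha0, ha⟩ := ih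
    obtain ⟨b, hb0, hb⟩ := exists_denom245 v y
    refine ⟨a * b, mul_ne_zero ha0 hb0, ?_⟩
    intro z hz
    rw [toCompl245_mul]
    rcases Finset.mem_insert.1 hz with rfl | hz
    · rw [mul_assoc]
      exact mul_mem (toCompl245_mem_integers K v a) hb
    · rw [mul_comm (toCompl245 K v a), mul_assoc]
      exact mul_mem (toCompl245_mem_integers K v b) (ha z hz)

end Fermat.Agent.LT.T3.H245
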