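import Fermat.Agent.LT.T3.H245.PureRegA

/-!
# Row LT, tower T3, leaf T3.18a.3 `PureRegC` (helper245), part B: groups and topology

OFF-MAIN.  The local congruence subgroup `U(𝔫)_v`, the subgroup `OutsideU` of `GL₂(𝔸_K)` (open,
hence closed), continuity of the components `finGL`, `infGL`, continuity of a
bi-`GL₂(𝒪_v)`-invariant function, continuity of the pure tensor.
-/

set_option autoImplicit false

open IsDedekindDomain NumberField MeasureTheory
open Fermat.Agent.LT.H556.A0
open scoped RestrictedProduct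

noncomputable section

namespace Fermat.Agent.LT.T3.H245

variable {K : Type} [Field K] [NumberField K]

/-! ## Continuity of the components -/

theorem continuous_finHom245 (v : HeightOneSpectrum (𝓞 K)) : Continuous (AS.finHom K v) := by
  have h : Continuous (fun x : InfiniteAdeleRing K × FiniteAdeleRing (𝓞 K) K => x.2 v) :=
    (RestrictedProduct.continuous_eval v).comp continuous_snd
  exact h

theorem continuous_infHom245 (w : InfinitePlace K) : Continuous (AS.infHom K w) := by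
  have h : Continuous (fun x : InfiniteAdeleRing K × FiniteAdeleRing (𝓞 K) K =>
      InfinitePlace.Completion.extensionEmbedding w (x.1 w)) :=
    (InfinitePlace.Completion.isometry_extensionEmbedding w).continuous.comp
      ((continuous_apply w).comp continuous_fst)
  exact h

theorem continuous_finGL245 (v : HeightOneSpectrum (𝓞 K)) : Continuous (AS.finGL K v) := by
  refine Continuous.units_map _ ?_
  exact Continuous.matrix_map continuous_id (continuous_finHom245 v)

theorem continuous_infGL245 (w : InfinitePlace K) : Continuous (AS.infGL K w) := by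
  refine Continuous.units_map _ ?_
  exact Continuous.matrix_map continuous_id (continuous_infHom245 w)

/-! ## `GL₂(𝒪_v)` -/

theorem isIntGL_one245 (v : HeightOneSpectrum (𝓞 K)) :
    AS.IsIntGL v (1 : GL (Fin 2) (v.adicCompletion K)) := by
  intro i j
  rw [inv_one, Units.val_one, Matrix.one_apply]
  split_ifs
  · exact ⟨one_mem _, one_mem _⟩
  · exact ⟨zero_mem _, zero_mem _⟩

theorem isOpen_isIntGL245 (v : HeightOneSpectrum (𝓞 K)) :
    IsOpen {g : GL (Fin 2) (v.adicCompletion K) | AS.IsIntGL v g} := by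
  have hO : IsOpen (v.adicCompletionIntegers K : Set (v.adicCompletion K)) :=
    Valued.isOpen_valuationSubring _
  have e : {g : GL (Fin 2) (v.adicCompletion K) | AS.IsIntGL v g}
      = ⋂ i : Fin 2, ⋂ j : Fin 2,
        ((fun g : GL (Fin 2) (v.adicCompletion K) =>
            (g : Matrix (Fin 2) (Fin 2) (v.adicCompletion K)) i j) ⁻¹'
            (v.adicCompletionIntegers K : Set (v.adicCompletion K))
          ∩ (fun g : GL (Fin 2) (v.adicCompletion K) =>
            ((g⁻¹ : GL (Fin 2) (v.adicCompletion K)) :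
              Matrix (Fin 2) (Fin 2) (v.adicCompletion K)) i j) ⁻¹'
            (v.adicCompletionIntegers K : Set (v.adicCompletion K))) := by
    ext g
    simp only [Set.mem_ofPred_eq, Set.mem_iInter, Set.mem_inter_iff, Set.mem_preimage,
      SetLike.mem_coe]
    exact Iff.rfl
  rw [e]
  exact isOpen_iInter_of_finite fun i => isOpen_iInter_of_finite fun j =>
    (hO.preimage (Units.continuous_val.matrix_elem i j)).inter
      (hO.preimage ((Units.continuous_val.comp continuous_inv).matrix_elem i j))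

/-- A bi-`GL₂(𝒪_v)`-invariant function is locally constant. -/
theorem continuous_of_biIntInv245 {v : HeightOneSpectrum (𝓞 K)}
    {f₀ : GL (Fin 2) (v.adicCompletion K) → ℂ} (h : AS.IsBiIntInv v f₀) : Continuous f₀ := by
  refine ((IsLocallyConstant.iff_exists_open f₀).2 ?_).continuous
  intro g
  refine ⟨(fun g' => g⁻¹ * g') ⁻¹' {k | AS.IsIntGL v k},
    (isOpen_isIntGL245 v).preimage (continuous_const.mul continuous_id), ?_, ?_⟩
  · show AS.IsIntGL v (g⁻¹ * g)
    rw [inv_mul_cancel]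
    exact isIntGL_one245 v
  · intro g' hg'
    have := h 1 (g⁻¹ * g') g (isIntGL_one245 v) hg'
    rw [one_mul, mul_inv_cancel_left] at this
    exact this

/-! ## The local congruence subgroup -/

theorem sub_one_mul245 {R : Type*} [Ring R] (A B : Matrix (Fin 2) (Fin 2) R) :
    A * B - 1 = (A - 1) * (B - 1) + (A - 1) + (B - 1) := by
  noncomm_ring

theorem locU_mul_aux245 (𝔫 : Ideal (𝓞 K)) (v : HeightOneSpectrum (𝓞 K))
    {A B : Matrix (Fin 2) (Fin 2) (v.adicCompletion K)}
    (hA : ∀ i j, (A - 1) i j ∈ idealClosure 𝔫 v) (hB : ∀ i j, (B - 1) i j ∈ idealClosure 𝔫 v) :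
    ∀ i j, (A * B - 1) i j ∈ idealClosure 𝔫 v := by
  intro i j
  rw [sub_one_mul245, Matrix.add_apply, Matrix.add_apply, Matrix.mul_apply, Fin.sum_univ_two]
  exact add_mem_idealClosure245 _ _ (add_mem_idealClosure245 _ _
    (add_mem_idealClosure245 _ _ (mul_mem_idealClosure245' _ _ (hA i 0) (hB 0 j))
      (mul_mem_idealClosure245' _ _ (hA i 1) (hB 1 j))) (hA i j)) (hB i j)

/-- The local congruence subgroup `U(𝔫)_v ⊆ GL₂(K_v)`. -/
def locU245 (𝔫 : Ideal (𝓞 K)) (v : HeightOneSpectrum (𝓞 K)) :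
    Subgroup (GL (Fin 2) (v.adicCompletion K)) where
  carrier := {g | ∀ i j : Fin 2,
    ((g : Matrix (Fin 2) (Fin 2) (v.adicCompletion K)) - 1) i j ∈ idealClosure 𝔫 v ∧
    (((g⁻¹ : GL (Fin 2) (v.adicCompletion K)) :
      Matrix (Fin 2) (Fin 2) (v.adicCompletion K)) - 1) i j ∈ idealClosure 𝔫 v}
  mul_mem' := by
    intro a b ha hb i j
    refine ⟨?_, ?_⟩
    · have := locU_mul_aux245 𝔫 v (fun i j => (ha i j).1) (fun i j => (hb i j).1) i j
      rw [Units.val_mul]
      exact this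
    · have := locU_mul_aux245 𝔫 v (fun i j => (hb i j).2) (fun i j => (ha i j).2) i j
      rw [mul_inv_rev, Units.val_mul]
      exact this
  one_mem' := by
    intro i j
    rw [inv_one, Units.val_one, sub_self]
    exact ⟨zero_mem_idealClosure245 𝔫 v, zero_mem_idealClosure245 𝔫 v⟩
  inv_mem' := by
    intro a ha i j
    refine ⟨(ha i j).2, ?_⟩
    rw [inv_inv]
    exact (ha i j).1

theorem mem_locU245 {𝔫 : Ideal (𝓞 K)} {v : HeightOneSpectrum (𝓞 K)}
    {g : GL (Fin 2) (v.adicCompletion K)} :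
    g ∈ locU245 𝔫 v ↔ ∀ i j : Fin 2,
      ((g : Matrix (Fin 2) (Fin 2) (v.adicCompletion K)) - 1) i j ∈ idealClosure 𝔫 v ∧
      (((g⁻¹ : GL (Fin 2) (v.adicCompletion K)) :
        Matrix (Fin 2) (Fin 2) (v.adicCompletion K)) - 1) i j ∈ idealClosure 𝔫 v :=
  Iff.rfl

/-- `U(𝔫)_v ⊆ GL₂(𝒪_v)`. -/
theorem isIntGL_of_mem_locU245 {𝔫 : Ideal (𝓞 K)} {v : HeightOneSpectrum (𝓞 K)}
    {g : GL (Fin 2) (v.adicCompletion K)} (hg : g ∈ locU245 𝔫 v) : AS.IsIntGL v g := by
  have key : ∀ (A : Matrix (Fin 2) (Fin 2) (v.adicCompletion K)) (i j : Fin 2),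
      (A - 1) i j ∈ idealClosure 𝔫 v → A i j ∈ v.adicCompletionIntegers K := by
    intro A i j h
    have h1 : (A - 1) i j ∈ v.adicCompletionIntegers K := idealClosure_subset245 𝔫 v h
    have h2 : (1 : Matrix (Fin 2) (Fin 2) (v.adicCompletion K)) i j
        ∈ v.adicCompletionIntegers K := by
      rw [Matrix.one_apply]
      split_ifs
      · exact one_mem _
      · exact zero_mem _
    have : A i j = (A - 1) i j + (1 : Matrix (Fin 2) (Fin 2) (v.adicCompletion K)) i j := by
      rw [Matrix.sub_apply, sub_add_cancel]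
    rw [this]
    exact add_mem h1 h2
  intro i j
  exact ⟨key _ i j (hg i j).1, key _ i j (hg i j).2⟩

/-- `U(𝔫)_v = GL₂(𝒪_v)` when `v ∤ 𝔫`. -/
theorem mem_locU_of_isIntGL245 {𝔫 : Ideal (𝓞 K)} {v : HeightOneSpectrum (𝓞 K)}
    (hv : ¬ v.asIdeal ∣ 𝔫) {g : GL (Fin 2) (v.adicCompletion K)} (hg : AS.IsIntGL v g) :
    g ∈ locU245 𝔫 v := by
  have key : ∀ (A : Matrix (Fin 2) (Fin 2) (v.adicCompletion K)) (i j : Fin 2),
      A i j ∈ v.adicCompletionIntegers K → (A - 1) i j ∈ idealClosure 𝔫 v := by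
    intro A i j h
    rw [idealClosure_eq_integers245 𝔫 v hv, Matrix.sub_apply, Matrix.one_apply]
    split_ifs
    · exact sub_mem h (one_mem _)
    · exact sub_mem h (zero_mem _)
  intro i j
  exact ⟨key _ i j (hg i j).1, key _ i j (hg i j).2⟩

/-! ## The subgroup `OutsideU` -/

theorem outsideU_iff245 {𝔫 : Ideal (𝓞 K)} {v₀ : HeightOneSpectrum (𝓞 K)} {h : G K} :
    AS.OutsideU K 𝔫 v₀ h ↔ ∀ v : HeightOneSpectrum (𝓞 K), v ≠ v₀ →
      AS.finGL K v h ∈ locU245 𝔫 v := by
  constructor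
  · intro H v hv i j
    refine ⟨(H v hv i j).1, ?_⟩
    rw [← map_inv]
    exact (H v hv i j).2
  · intro H v hv i j
    refine ⟨(H v hv i j).1, ?_⟩
    have := (H v hv i j).2
    rw [← map_inv] at this
    exact this

/-- `{h | OutsideU h}` as a subgroup of `GL₂(𝔸_K)`. -/
def outU245 (𝔫 : Ideal (𝓞 K)) (v₀ : HeightOneSpectrum (𝓞 K)) : Subgroup (G K) where
  carrier := {h | AS.OutsideU K 𝔫 v₀ h}
  mul_mem' := by
    intro a b ha hb
    rw [Set.mem_ofPred_eq, outsideU_iff245] at ha hb ⊢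
    intro v hv
    rw [map_mul]
    exact mul_mem (ha v hv) (hb v hv)
  one_mem' := by
    rw [Set.mem_ofPred_eq, outsideU_iff245]
    intro v _
    rw [map_one]
    exact one_mem _
  inv_mem' := by
    intro a ha
    rw [Set.mem_ofPred_eq, outsideU_iff245] at ha ⊢
    intro v hv
    rw [map_inv]
    exact inv_mem (ha v hv)

theorem mem_outU245 {𝔫 : Ideal (𝓞 K)} {v₀ : HeightOneSpectrum (𝓞 K)} {h : G K} :
    h ∈ outU245 𝔫 v₀ ↔ AS.OutsideU K 𝔫 v₀ h := Iff.rfl

theorem finComp_sub_one245 (v : HeightOneSpectrum (𝓞 K)) (h : G K) (i j : Fin 2) :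
    (finComp v h - 1) i j
      = (((h : Matrix (Fin 2) (Fin 2) (Adl K)) - 1) i j).2 v := by
  rw [Matrix.sub_apply, Matrix.sub_apply, Matrix.one_apply, Matrix.one_apply]
  split_ifs
  · rfl
  · rfl

/-- `OutsideU` is open. -/
theorem isOpen_outU245 {𝔫 : Ideal (𝓞 K)} (h𝔫 : 𝔫 ≠ ⊥) (v₀ : HeightOneSpectrum (𝓞 K)) :
    IsOpen (outU245 𝔫 v₀ : Set (G K)) := by
  apply Subgroup.isOpen_of_mem_nhds
  have hT : {v : HeightOneSpectrum (𝓞 K) | v.asIdeal ∣ 𝔫}.Finite := Ideal.finite_factors h𝔫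
  set W : Set (FiniteAdeleRing (𝓞 K) K) :=
    {x | ∀ v, x v ∈ v.adicCompletionIntegers K}
      ∩ ⋂ v ∈ {v : HeightOneSpectrum (𝓞 K) | v.asIdeal ∣ 𝔫},
          {x : FiniteAdeleRing (𝓞 K) K | x v ∈ idealClosure 𝔫 v} with hWdef
  have hW : IsOpen W := by
    refine IsOpen.inter ?_ ?_
    · exact RestrictedProduct.isOpen_forall_mem (fun v => Valued.isOpen_valuationSubring _)
    · refine hT.isOpen_biInter fun v _ => ?_
      exact (isOpen_idealClosure245 𝔫 v h𝔫).preimage (RestrictedProduct.continuous_eval v)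
  have hWI : ∀ x ∈ W, ∀ v, x v ∈ idealClosure 𝔫 v := by
    intro x hx v
    by_cases hv : v.asIdeal ∣ 𝔫
    · exact Set.mem_iInter₂.1 hx.2 v hv
    · rw [idealClosure_eq_integers245 𝔫 v hv]
      exact hx.1 v
  have hW0 : (0 : FiniteAdeleRing (𝓞 K) K) ∈ W := by
    refine ⟨fun v => zero_mem _, Set.mem_iInter₂.2 fun v _ => ?_⟩
    exact zero_mem_idealClosure245 𝔫 v
  set V : Set (G K) := ⋂ i : Fin 2, ⋂ j : Fin 2,
    ((fun h : G K => (((h : Matrix (Fin 2) (Fin 2) (Adl K)) - 1) i j).2) ⁻¹' W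
      ∩ (fun h : G K => ((((h⁻¹ : G K) : Matrix (Fin 2) (Fin 2) (Adl K)) - 1) i j).2) ⁻¹' W)
    with hVdef
  have hsnd : Continuous (fun x : Adl K => x.2) := continuous_snd
  have hV : IsOpen V := by
    refine isOpen_iInter_of_finite fun i => isOpen_iInter_of_finite fun j => ?_
    refine (hW.preimage ?_).inter (hW.preimage ?_)
    · exact hsnd.comp ((Units.continuous_val.sub continuous_const).matrix_elem i j)
    · exact hsnd.comp
        (((Units.continuous_val.comp continuous_inv).sub continuous_const).matrix_elem i j)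
  have h1 : (1 : G K) ∈ V := by
    refine Set.mem_iInter.2 fun i => Set.mem_iInter.2 fun j => ⟨?_, ?_⟩
    · show (((((1 : G K) : Matrix (Fin 2) (Fin 2) (Adl K)) - 1) i j).2) ∈ W
      rw [Units.val_one, sub_self]
      exact hW0
    · show ((((((1 : G K)⁻¹ : G K) : Matrix (Fin 2) (Fin 2) (Adl K)) - 1) i j).2) ∈ W
      rw [inv_one, Units.val_one, sub_self]
      exact hW0
  refine Filter.mem_of_superset (hV.mem_nhds h1) ?_
  intro h hh v _ i j
  have hij := Set.mem_iInter.1 (Set.mem_iInter.1 hh i) j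
  refine ⟨?_, ?_⟩
  · rw [finComp_sub_one245]
    exact hWI _ hij.1 v
  · rw [finComp_sub_one245]
    exact hWI _ hij.2 v

/-- `OutsideU` is open and closed. -/
theorem isClopen_outsideU245 {𝔫 : Ideal (𝓞 K)} (h𝔫 : 𝔫 ≠ ⊥) (v₀ : HeightOneSpectrum (𝓞 K)) :
    IsClopen {h : G K | AS.OutsideU K 𝔫 v₀ h} :=
  ⟨Subgroup.isClosed_of_isOpen (outU245 𝔫 v₀) (isOpen_outU245 h𝔫 v₀), isOpen_outU245 h𝔫 v₀⟩

/-! ## Continuity of the pure tensor -/

theorem continuous_pureFn245 {𝔫 : Ideal (𝓞 K)} (h𝔫 : 𝔫 ≠ ⊥) (v₀ : HeightOneSpectrum (𝓞 K))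
    {f₀ : GL (Fin 2) (v₀.adicCompletion K) → ℂ} {F : InfinitePlace K → GL (Fin 2) ℂ → ℂ}
    (hf₀ : AS.IsBiIntInv v₀ f₀) (hF : ∀ w, Continuous (F w)) :
    Continuous (AS.pureFn K 𝔫 v₀ f₀ F) := by
  have hφ : Continuous (fun h : G K =>
      f₀ (AS.finGL K v₀ h) * ∏ w : InfinitePlace K, F w (AS.infGL K w h)) :=
    ((continuous_of_biIntInv245 hf₀).comp (continuous_finGL245 v₀)).mul
      (continuous_finsetProd _ fun w _ => (hF w).comp (continuous_infGL245 w))
  unfold AS.pureFn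
  classical
  refine Continuous.if ?_ hφ continuous_const
  intro a ha
  rw [(isClopen_outsideU245 h𝔫 v₀).frontier_eq] at ha
  exact absurd ha (Set.notMem_empty a)

end Fermat.Agent.LT.T3.H245
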